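/-
P-FROB (helper7), consumer lemma: a quadratic relation `x² - a x + d = 0` passes to all powers of
`x`, with constant term `d ^ k`.  Hence "Frobenius density" (every `g` is a power of a Frobenius on
a given finite level) is enough to get a quadratic relation with the right determinant for every
group element.
-/
import Mathlib

set_option autoImplicit false

namespace Fermat.Agent.H7.Frob

/-- The Lucas sequence `V_k(a, d)`: `V_0 = 2`, `V_1 = a`, `V_{k+2} = a V_{k+1} - d V_k`. -/
def lucasV {R : Type*} [CommRing R] (a d : R) : ℕ → R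
  | 0 => 2
  | 1 => a
  | (k + 2) => a * lucasV a d (k + 1) - d * lucasV a d k

theorem lucasV_zero {R : Type*} [CommRing R] (a d : R) : lucasV a d 0 = 2 := rfl

theorem lucasV_one {R : Type*} [CommRing R] (a d : R) : lucasV a d 1 = a := rfl

theorem lucasV_add_two {R : Type*} [CommRing R] (a d : R) (k : ℕ) :
    lucasV a d (k + 2) = a * lucasV a d (k + 1) - d * lucasV a d k := rfl

section

variable {R A : Type*} [CommRing R] [Ring A] [Algebra R A]

/-- If `x² - a x + d = 0` then `x ^ k + (a - x) ^ k = V_k(a, d)`. -/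
theorem pow_add_conj_pow (x : A) (a d : R) (h : x * x - a • x + d • (1 : A) = 0) (k : ℕ) :
    x ^ k + (a • (1 : A) - x) ^ k = lucasV a d k • (1 : A) := by
  have hxy : x * (a • (1 : A) - x) = d • (1 : A) := by
    have : x * (a • (1 : A) - x) = -(x * x - a • x + d • (1 : A)) + d • (1 : A) := by
      rw [mul_sub, mul_smul_comm, mul_one]; abel
    rw [this, h, neg_zero, zero_add]
  have hyx : (a • (1 : A) - x) * x = d • (1 : A) := by
    rw [← hxy, sub_mul, mul_sub, smul_mul_assoc, one_mul, mul_smul_comm, mul_one]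
  have key : ∀ k : ℕ, x ^ k + (a • (1 : A) - x) ^ k = lucasV a d k • (1 : A) ∧
      x ^ (k + 1) + (a • (1 : A) - x) ^ (k + 1) = lucasV a d (k + 1) • (1 : A) := by
    intro k
    induction k with
    | zero =>
      refine ⟨?_, ?_⟩
      · rw [pow_zero, pow_zero, lucasV_zero, two_smul]
      · rw [zero_add, pow_one, pow_one, lucasV_one]; abel
    | succ k ih =>
      refine ⟨ih.2, ?_⟩
      set y := a • (1 : A) - x with hy
      have hsum : x + y = a • (1 : A) := by rw [hy]; abel
      have e1 : x ^ (k + 1 + 1) + y ^ (k + 1 + 1) =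
          (x + y) * (x ^ (k + 1) + y ^ (k + 1)) - (x * y) * y ^ k - (y * x) * x ^ k := by
        rw [add_mul, mul_add, mul_add, mul_assoc x y, mul_assoc y x, ← pow_succ' y k,
          ← pow_succ' x k, ← pow_succ' x (k + 1), ← pow_succ' y (k + 1)]
        abel
      rw [e1, ih.2, hsum, hxy, hyx, lucasV_add_two, smul_mul_assoc, one_mul, smul_mul_assoc,
        one_mul, smul_mul_assoc, one_mul, sub_sub, ← smul_add, add_comm (y ^ k) (x ^ k), ih.1,
        smul_smul, smul_smul, ← sub_smul]
  exact (key k).1

/-- **Power trick**: if `x² - a x + d = 0` then `(x^k)² - V_k(a,d) x^k + d^k = 0`. -/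
theorem quadratic_relation_pow (x : A) (a d : R) (h : x * x - a • x + d • (1 : A) = 0) (k : ℕ) :
    x ^ k * x ^ k - lucasV a d k • x ^ k + d ^ k • (1 : A) = 0 := by
  have hxy : x * (a • (1 : A) - x) = d • (1 : A) := by
    have : x * (a • (1 : A) - x) = -(x * x - a • x + d • (1 : A)) + d • (1 : A) := by
      rw [mul_sub, mul_smul_comm, mul_one]; abel
    rw [this, h, neg_zero, zero_add]
  have hcomm : Commute x (a • (1 : A) - x) := by
    refine Commute.sub_right ?_ (Commute.refl x)
    exact (Commute.one_right x).smul_right a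
  have hpow : x ^ k * (a • (1 : A) - x) ^ k = d ^ k • (1 : A) := by
    rw [← hcomm.mul_pow, hxy, smul_pow, one_pow]
  have hV := pow_add_conj_pow x a d h k
  have : lucasV a d k • x ^ k = x ^ k * x ^ k + x ^ k * (a • (1 : A) - x) ^ k := by
    rw [← mul_add, hV, mul_smul_comm, mul_one]
  rw [this, hpow]; abel

end

end Fermat.Agent.H7.Frob
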