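/-
P-FROB (helper7): the Frobenius density theorem in EXISTENCE form, as a cheap replacement of
Chebotarev for every application that only compares characteristic polynomials.

Top statement `FrobGenStatement` (prelude language): for every finite extension `F` of `ℚ` inside
`ℚ̄`, every `g ∈ Gal(ℚ̄/ℚ)` and every finite set `T` of primes there are a prime `ℓ ∉ T`, a
valuation subring `A` of `ℚ̄` over `ℓ`, a Frobenius lift `σ` at `A` and exponents `k`, `j` with
`σ ^ k = g` and `g ^ j = σ` on `F`.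

Only Dedekind zeta functions are used (no L-functions, no field crossing, no class field theory).
-/
import Mathlib
import Fermat.Prelude.Def_EllipticCurve_FrobeniusTrace

set_option autoImplicit false

namespace Fermat.Agent.H7.Frob

open NumberField IsDedekindDomain

/-- **FD-1** (analytic): in every number field the degree-one primes have logarithmic mass
`log (1 / (s - 1)) + O(1)` as `s → 1⁺`. -/
def DegOneMassStatement : Prop :=
  ∀ (F : Type) [Field F] [NumberField F], ∃ B : ℝ, ∀ s : ℝ, 1 < s → s ≤ 2 →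
    |(∑' v : {v : HeightOneSpectrum (𝓞 F) // (Ideal.absNorm v.asIdeal).Prime},
        ((Ideal.absNorm v.1.asIdeal : ℕ) : ℝ) ^ (-s)) - Real.log (1 / (s - 1))| ≤ B

/-- **FD-N** (number fields): in a finite Galois extension `L/ℚ`, for every `g` and every finite
set `T` of primes there is a prime `𝔓` of `𝓞 L` over some `ℓ ∉ T` such that every element of the
Galois group which is a Frobenius at `𝔓` generates the same cyclic subgroup as `g`. -/
def FrobGenNumberFieldStatement : Prop :=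
  ∀ (L : Type) [Field L] [NumberField L] [IsGalois ℚ L] (g : L ≃ₐ[ℚ] L) (T : Finset ℕ),
    ∃ (𝔓 : Ideal (𝓞 L)) (ℓ : ℕ), 𝔓.IsPrime ∧ ℓ.Prime ∧ ℓ ∉ T ∧ ((ℓ : ℕ) : 𝓞 L) ∈ 𝔓 ∧
      ∀ σ : L ≃ₐ[ℚ] L, (∀ x : 𝓞 L, ∃ y ∈ 𝔓, σ (x : L) = (x : L) ^ ℓ + (y : L)) →
        Subgroup.zpowers σ = Subgroup.zpowers g

/-- **FD-Q** (top statement, prelude language). -/
def FrobGenStatement : Prop :=
  ∀ (F : IntermediateField ℚ (AlgebraicClosure ℚ)), FiniteDimensional ℚ F →
    ∀ (g : AlgebraicClosure ℚ ≃ₐ[ℚ] AlgebraicClosure ℚ) (T : Finset ℕ),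
      ∃ (ℓ : ℕ) (A : ValuationSubring (AlgebraicClosure ℚ))
        (σ : AlgebraicClosure ℚ ≃ₐ[ℚ] AlgebraicClosure ℚ) (k j : ℕ),
        ℓ.Prime ∧ ℓ ∉ T ∧ A.LiesOverPrime ℓ ∧ A.IsFrobeniusAt σ ℓ ∧
          (∀ x ∈ F, (σ ^ k) x = g x) ∧ (∀ x ∈ F, (g ^ j) x = σ x)

end Fermat.Agent.H7.Frob
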